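import Fermat.Agent.S25.B.H34_InvLoc
import Fermat.Agent.S25.Glue.H18_BGen

/-!
# S25, layer B: invertible sheaves on an affine scheme (helper34)

* `isQuasicoherent_of_isInvertible` : an invertible sheaf of modules (prelude definition) on any
  scheme is quasi-coherent;
* `tildeΓIso` : on `Spec B` it is `Γ(L)^~`;
* `invertible_Γ` : `Γ(Spec B, L)` is an invertible `B`-module (`Module.Invertible`).
-/

set_option autoImplicit false
set_option maxHeartbeats 400000

open CategoryTheory AlgebraicGeometry Limits TopologicalSpace Opposite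

universe u

noncomputable section

namespace Fermat.Agent.S25.B.H34

/-- the unit sheaf of modules is the free module on one generator -/
def freeUnitIso {C : Type*} [Category C] {J : GrothendieckTopology C} (R : Sheaf J RingCat.{u})
    [HasWeakSheafify J AddCommGrpCat.{u}] [J.WEqualsLocallyBijective AddCommGrpCat.{u}] :
    SheafOfModules.free (R := R) PUnit.{u+1} ≅ SheafOfModules.unit R :=
  Limits.coproductUniqueIso (fun _ : PUnit.{u+1} => SheafOfModules.unit R)

theorem unit_over_isQuasicoherent (X : Scheme.{u}) (U : X.Opens) :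
    (SheafOfModules.unit (X.ringCatSheaf.over U)).IsQuasicoherent :=
  (SheafOfModules.isQuasicoherent (X.ringCatSheaf.over U)).prop_of_iso
    (freeUnitIso (X.ringCatSheaf.over U))
    (inferInstanceAs (SheafOfModules.free (R := X.ringCatSheaf.over U) PUnit.{u+1}).IsQuasicoherent)

theorem over_isQuasicoherent_of_iso (X : Scheme.{u}) (U : X.Opens) (M : X.Modules)
    (e : (Scheme.Modules.pullback U.ι).obj M ≅ SheafOfModules.unit U.toScheme.ringCatSheaf) :
    (SheafOfModules.over M U).IsQuasicoherent := by
  let F := (Scheme.Modules.overEquiv U).functor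
  have e1 : F.obj (SheafOfModules.over M U) ≅ F.obj (SheafOfModules.unit (X.ringCatSheaf.over U)) :=
    (Scheme.Modules.overFunctorEquiv U).app M ≪≫
      (Scheme.Modules.restrictFunctorIsoPullback U.ι).app M ≪≫ e ≪≫
      (TopologicalSpace.Opens.sheafOfModulesEquivOverUnit U X.ringCatSheaf).symm
  have e2 : SheafOfModules.over M U ≅ SheafOfModules.unit (X.ringCatSheaf.over U) :=
    F.preimageIso e1
  exact (SheafOfModules.isQuasicoherent (X.ringCatSheaf.over U)).prop_of_iso e2.symm
    (unit_over_isQuasicoherent X U)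

/-- **an invertible sheaf of modules is quasi-coherent** -/
theorem isQuasicoherent_of_isInvertible (X : Scheme.{u}) (M : X.Modules)
    (hM : Scheme.Modules.IsInvertible M) : M.IsQuasicoherent := by
  choose U hxU hU using hM.exists_trivialization
  have : ∀ x : X, (SheafOfModules.over M (U x)).IsQuasicoherent := fun x =>
    over_isQuasicoherent_of_iso X (U x) M (hU x).some
  refine SheafOfModules.IsQuasicoherent.of_coversTop M (fun x : X => U x) ?_
  rw [Opens.coversTop_iff]
  exact eq_top_iff.2 fun x _ => Opens.mem_iSup.2 ⟨x, hxU x⟩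

variable {B : CommRingCat.{u}}

/-- the sections over `U` as a `B`-module -/
abbrev ΓModU (L : (Spec B).Modules) (U : (Spec B).Opens) : ModuleCat.{u} B :=
  (modulesSpecToSheaf.obj L).obj.obj (.op U)

/-- the module of global sections -/
abbrev ΓMod (L : (Spec B).Modules) : ModuleCat.{u} B := ΓModU L ⊤

/-- an invertible sheaf on `Spec B` is the sheaf associated with its global sections -/
def tildeΓIso (L : (Spec B).Modules) (hL : Scheme.Modules.IsInvertible L) :
    tilde (ΓMod L) ≅ L :=
  haveI : IsIso L.fromTildeΓ :=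
    (isQuasicoherent_iff_isIso_fromTildeΓ L).1 (isQuasicoherent_of_isInvertible _ L hL)
  asIso L.fromTildeΓ

/-- INV-LOC with `R`-linear trivialisations of arbitrary localisations -/
theorem invertible_of_localizationSpan_equiv {R : Type*} [CommRing R] {M : Type*}
    [AddCommGroup M] [Module R M] (s : Set R) (hs : Ideal.span s = ⊤)
    (h : ∀ r : s, ∃ (N : Type u) (_ : AddCommGroup N) (_ : Module R N) (g : M →ₗ[R] N)
      (A : Type u) (_ : CommRing A) (_ : Algebra R A),
      IsLocalizedModule (.powers r.1) g ∧ IsLocalization.Away r.1 A ∧ Nonempty (N ≃ₗ[R] A)) :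
    Module.Invertible R M := by
  refine invertible_of_localizationSpan s hs fun r => ?_
  obtain ⟨N, _, _, g, A, _, _, hg, hA, ⟨e⟩⟩ := h r
  let e1 : LocalizedModule.Away r.1 M ≃ₗ[R] N := IsLocalizedModule.iso (.powers r.1) g
  let e2 : A ≃ₗ[R] Localization.Away r.1 :=
    (IsLocalization.algEquiv (.powers r.1) A (Localization.Away r.1)).toLinearEquiv
  let e3 : LocalizedModule.Away r.1 M ≃ₗ[R] Localization.Away r.1 := e1 ≪≫ₗ e ≪≫ₗ e2
  let e4 : LocalizedModule.Away r.1 M ≃ₗ[Localization.Away r.1] Localization.Away r.1 :=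
    LinearEquiv.extendScalarsOfIsLocalization (.powers r.1) (Localization.Away r.1) e3
  exact Module.Invertible.congr e4.symm

/-- an invertible sheaf on `Spec B` is localizing -/
theorem isLocalizing_of_isInvertible (L : (Spec B).Modules)
    (hL : Scheme.Modules.IsInvertible L) : IsLocalizing (modulesSpecToSheaf.obj L) :=
  (isIso_fromTildeΓ_iff_isLocalizing L).1
    ((isQuasicoherent_iff_isIso_fromTildeΓ L).1 (isQuasicoherent_of_isInvertible _ L hL))

/-- the set of `f` such that `L` has a generating section over `D(f)` -/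
def genSet (L : (Spec B).Modules) : Set B :=
  {f | ∃ t : Γ(L, PrimeSpectrum.basicOpen f), Glue.IsGen L (PrimeSpectrum.basicOpen f) t}

theorem span_genSet (L : (Spec B).Modules) (hL : Scheme.Modules.IsInvertible L) :
    Ideal.span (genSet L) = ⊤ := by
  by_contra h
  obtain ⟨m, hm, hle⟩ := Ideal.exists_le_maximal _ h
  let x : Spec B := (⟨m, hm.isPrime⟩ : PrimeSpectrum B)
  obtain ⟨U, hxU, t, ht⟩ := (Glue.stmt_BGEN (Spec B) L).1 hL x
  obtain ⟨a, ⟨_, ⟨f, rfl⟩, rfl⟩, hxf, hfU : PrimeSpectrum.basicOpen _ ≤ _⟩ :=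
    PrimeSpectrum.isBasis_basic_opens.exists_subset_of_mem_open hxU U.2
  have hf : f ∈ genSet L := ⟨_, ht.mono hfU⟩
  exact hxf (hle (Ideal.subset_span hf))

/-- the restriction map to `D(f)`, `B`-linear -/
def resBasic (L : (Spec B).Modules) (f : B) :
    ΓMod L →ₗ[B] ΓModU L (PrimeSpectrum.basicOpen f) :=
  ((modulesSpecToSheaf.obj L).obj.map
    (homOfLE (le_top : (PrimeSpectrum.basicOpen f : (Spec B).Opens) ≤ ⊤)).op).hom

theorem isLocalizedModule_resBasic (L : (Spec B).Modules)
    (hL : Scheme.Modules.IsInvertible L) (f : B) :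
    IsLocalizedModule (.powers f) (resBasic L f) :=
  isLocalizing_of_isInvertible L hL f

/-- the map `a ↦ a • t`, `B`-linear -/
def genMap (L : (Spec B).Modules) (U : (Spec B).Opens) (t : Γ(L, U)) :
    Γ(Spec B, U) →ₗ[B] ΓModU L U where
  toFun := fun a => (a • t : Γ(L, U))
  map_add' := fun a b => add_smul a b t
  map_smul' := fun b a => smul_assoc b a t

theorem genMap_bijective (L : (Spec B).Modules) (U : (Spec B).Opens) (t : Γ(L, U))
    (ht : Glue.IsGen L U t) : Function.Bijective (genMap L U t) := by
  have h := ht U le_rfl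
  have e : L.presheaf.map (homOfLE (le_refl U)).op t = t := by
    have : (homOfLE (le_refl U)).op = 𝟙 (op U) := rfl
    rw [this, L.presheaf.map_id]; rfl
  rw [e] at h
  exact h

/-- the trivialisation `Γ(L, U) ≃ Γ(𝒪, U)` given by a generating section, `B`-linear -/
def genEquiv (L : (Spec B).Modules) (U : (Spec B).Opens) (t : Γ(L, U)) (ht : Glue.IsGen L U t) :
    ΓModU L U ≃ₗ[B] Γ(Spec B, U) :=
  (LinearEquiv.ofBijective (genMap L U t) (genMap_bijective L U t ht)).symm

theorem exists_loc (L : (Spec B).Modules) (hL : Scheme.Modules.IsInvertible L) (f : B)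
    (hf : f ∈ genSet L) :
    ∃ (N : Type u) (_ : AddCommGroup N) (_ : Module B N) (g : ΓMod L →ₗ[B] N)
      (A : Type u) (_ : CommRing A) (_ : Algebra B A),
      IsLocalizedModule (.powers f) g ∧ IsLocalization.Away f A ∧ Nonempty (N ≃ₗ[B] A) := by
  obtain ⟨t, ht⟩ := hf
  have h2 : IsLocalization.Away f Γ(Spec B, PrimeSpectrum.basicOpen f) := inferInstance
  exact ⟨ΓModU L (PrimeSpectrum.basicOpen f), _, _, resBasic L f,
    Γ(Spec B, PrimeSpectrum.basicOpen f), _, _, isLocalizedModule_resBasic L hL f, h2,
    ⟨genEquiv L _ t ht⟩⟩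

/-- **the global sections of an invertible sheaf on `Spec B` form an invertible module** -/
theorem invertible_Γ (L : (Spec B).Modules) (hL : Scheme.Modules.IsInvertible L) :
    Module.Invertible B (ΓMod L) :=
  invertible_of_localizationSpan_equiv (genSet L) (span_genSet L hL)
    fun r => exists_loc L hL r.1 r.2

end Fermat.Agent.S25.B.H34
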