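import Mathlib

/-!
# S25, layer B, algebra floor INV-LOC (helper34)

A module which is invertible after localisation at each element of a set generating the unit
ideal is invertible (`Module.Invertible`).  Mathlib has the converse
(`Module.Invertible.exists_finset_free_localization`) only.
-/

set_option autoImplicit false

open TensorProduct

namespace Fermat.Agent.S25.B.H34

variable {R : Type*} [CommRing R] {M : Type*} [AddCommGroup M] [Module R M]

/-- the localisation map of `Dual R M ⊗ M` -/
noncomputable def locDualTensor (r : R) :
    Module.Dual R M ⊗[R] M →ₗ[R]
      Module.Dual (Localization.Away r) (LocalizedModule.Away r M) ⊗[R]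
        LocalizedModule.Away r M :=
  TensorProduct.map
    (IsLocalizedModule.mapExtendScalars (.powers r) (LocalizedModule.mkLinearMap (.powers r) M)
      (Algebra.linearMap R (Localization.Away r)) (Localization.Away r))
    (LocalizedModule.mkLinearMap (.powers r) M)

instance isLocalizedModule_locDualTensor [Module.FinitePresentation R M] (r : R) :
    IsLocalizedModule (.powers r) (locDualTensor (M := M) r) := by
  unfold locDualTensor
  infer_instance

/-- the contraction of the localised module, on the tensor product over `R` -/
noncomputable def contractLoc (r : R) :
    Module.Dual (Localization.Away r) (LocalizedModule.Away r M) ⊗[R]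
        LocalizedModule.Away r M →ₗ[R] Localization.Away r :=
  ((contractLeft (Localization.Away r) (LocalizedModule.Away r M)) ∘ₗ
    (IsLocalization.moduleTensorEquiv (.powers r) (Localization.Away r)
      (Module.Dual (Localization.Away r) (LocalizedModule.Away r M))
      (LocalizedModule.Away r M)).symm.toLinearMap).restrictScalars R

theorem contractLoc_tmul (r : R)
    (φ : Module.Dual (Localization.Away r) (LocalizedModule.Away r M))
    (m : LocalizedModule.Away r M) : contractLoc r (φ ⊗ₜ[R] m) = φ m := by
  unfold contractLoc
  have h : (IsLocalization.moduleTensorEquiv (.powers r) (Localization.Away r)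
      (Module.Dual (Localization.Away r) (LocalizedModule.Away r M))
      (LocalizedModule.Away r M)).symm (φ ⊗ₜ[R] m) = φ ⊗ₜ[Localization.Away r] m := rfl
  simp only [LinearMap.coe_restrictScalars, LinearMap.coe_comp, LinearEquiv.coe_coe,
    Function.comp_apply, h, contractLeft_apply]

theorem bijective_contractLoc (r : R)
    [Module.Invertible (Localization.Away r) (LocalizedModule.Away r M)] :
    Function.Bijective (contractLoc (M := M) r) := by
  unfold contractLoc
  exact (Module.Invertible.bijective (R := Localization.Away r)
    (M := LocalizedModule.Away r M)).comp (LinearEquiv.bijective _)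

theorem map_contractLeft_eq [Module.FinitePresentation R M] (r : R) :
    IsLocalizedModule.map (.powers r) (locDualTensor (M := M) r)
      (Algebra.linearMap R (Localization.Away r)) (contractLeft R M) = contractLoc r := by
  apply IsLocalizedModule.linearMap_ext (.powers r) (locDualTensor (M := M) r)
    (Algebra.linearMap R (Localization.Away r))
  rw [IsLocalizedModule.map_comp]
  ext φ m
  simp only [TensorProduct.AlgebraTensorModule.curry_apply, TensorProduct.curry_apply,
    LinearMap.coe_restrictScalars, LinearMap.coe_comp, Function.comp_apply, locDualTensor,
    TensorProduct.map_tmul, contractLoc_tmul, contractLeft_apply, Algebra.linearMap_apply]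
  rw [IsLocalizedModule.mapExtendScalars_apply_apply, IsLocalizedModule.map_apply]
  rfl

/-- **INV-LOC**. -/
theorem invertible_of_localizationSpan (s : Set R) (hs : Ideal.span s = ⊤)
    (h : ∀ r : s, Module.Invertible (Localization.Away r.1) (LocalizedModule.Away r.1 M)) :
    Module.Invertible R M := by
  have : Module.FinitePresentation R M :=
    Module.FinitePresentation.of_localizationSpan s hs (fun g => by
      have := h g
      exact Module.finitePresentation_of_projective _ _)
  refine ⟨bijective_of_isLocalized_span s hs
    (fun r => Module.Dual (Localization.Away r.1) (LocalizedModule.Away r.1 M) ⊗[R]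
        LocalizedModule.Away r.1 M)
    (fun r => locDualTensor r.1)
    (fun r => Localization.Away r.1)
    (fun r => Algebra.linearMap R (Localization.Away r.1))
    (contractLeft R M) (fun r => ?_)⟩
  have := h r
  rw [map_contractLeft_eq]
  exact bijective_contractLoc r.1

end Fermat.Agent.S25.B.H34
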