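import Mathlib

/-!
# S25, layer B (sheaf bridge), floor lemma TILDE-PB (helper34)

For a ring homomorphism `φ : R ⟶ S` the pull-back of `M^~` along `Spec S ⟶ Spec R` is
`(S ⊗_R M)^~`, naturally in `M`.  Proof: both functors are left adjoint to
`N ↦ Γ(Spec S, N)` regarded as an `R`-module (uniqueness of left adjoints); no quasi-coherence.
-/

set_option autoImplicit false

open CategoryTheory AlgebraicGeometry Opposite TopologicalSpace

universe u

namespace Fermat.Agent.S25.B.H34

variable {R S : CommRingCat.{u}} (φ : R ⟶ S)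

/-- global sections of a push-forward, as `R`-modules -/
noncomputable def pushforwardΓIso :
    Scheme.Modules.pushforward (Spec.map φ) ⋙ moduleSpecΓFunctor (R := R) ≅
      moduleSpecΓFunctor (R := S) ⋙ ModuleCat.restrictScalars φ.hom :=
  Functor.isoWhiskerRight (pushforwardCompModulesSpecToSheafIso φ)
      (TopCat.Sheaf.forget _ _ ⋙ (evaluation _ _).obj (.op ⊤)) ≪≫
    NatIso.ofComponents (fun _ => Iso.refl _) (fun _ => by rfl)

/-- the adjunction `pull-back ∘ tilde ⊣ Γ ∘ push-forward` -/
noncomputable def adjPullbackTilde :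
    tilde.functor R ⋙ Scheme.Modules.pullback (Spec.map φ) ⊣
      Scheme.Modules.pushforward (Spec.map φ) ⋙ moduleSpecΓFunctor (R := R) :=
  (tilde.adjunction (R := R)).comp (Scheme.Modules.pullbackPushforwardAdjunction (Spec.map φ))

/-- the adjunction `tilde ∘ base change ⊣ restriction of scalars ∘ Γ` -/
noncomputable def adjTildeExtend :
    ModuleCat.extendScalars φ.hom ⋙ tilde.functor S ⊣
      moduleSpecΓFunctor (R := S) ⋙ ModuleCat.restrictScalars φ.hom :=
  (ModuleCat.extendRestrictScalarsAdj φ.hom).comp (tilde.adjunction (R := S))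

/-- **TILDE-PB** (functor form): pull-back of `M^~` is `(S ⊗_R M)^~`. -/
noncomputable def tildePullbackNatIso :
    tilde.functor R ⋙ Scheme.Modules.pullback (Spec.map φ) ≅
      ModuleCat.extendScalars φ.hom ⋙ tilde.functor S :=
  ((conjugateIsoEquiv (adjPullbackTilde φ) (adjTildeExtend φ)).symm
    (pushforwardΓIso φ)).symm

/-- **TILDE-PB** (object form). -/
noncomputable def tildePullbackIso (M : ModuleCat.{u} R) :
    (Scheme.Modules.pullback (Spec.map φ)).obj (tilde M) ≅
      tilde ((ModuleCat.extendScalars φ.hom).obj M) :=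
  (tildePullbackNatIso φ).app M

end Fermat.Agent.S25.B.H34
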